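import Fermat.Agent.MertensThird.Extreme
import Mathlib.Analysis.Calculus.MeanValue
import Mathlib.Analysis.Complex.LocallyUniformLimit
import Mathlib.Analysis.Normed.Module.MultipliableUniformlyOn
import Mathlib.NumberTheory.EulerProduct.DirichletLSeries
import Mathlib.NumberTheory.LSeries.Dirichlet

/-!
# The Dirichlet series of `φ n ^ (-s)`

`∑ φ n ^ (-s) = ζ s E s` for `1 < re s`, with `E s = ∏ (1 + (p - 1) ^ (-s) - p ^ (-s))` holomorphic
for `0 < re s` and `E 1 = ζ 2 ζ 3 / ζ 6`.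
-/

set_option autoImplicit false

noncomputable section

namespace FA.TotientCount

open Filter Set Complex
open scoped Topology

/-- `n ^ (-s)` in exponential form. -/
def powNeg (n : ℕ) (s : ℂ) : ℂ := cexp (-(s * Real.log n))

/-- `(p - 1) ^ (-s) - p ^ (-s)`. -/
def delta (p : Nat.Primes) (s : ℂ) : ℂ := powNeg (p.1 - 1) s - powNeg p s

/-- `∏ (1 + (p - 1) ^ (-s) - p ^ (-s))`. -/
def eulerFactor (s : ℂ) : ℂ := ∏' p : Nat.Primes, (1 + delta p s)

theorem powNeg_eq_cpow {n : ℕ} (hn : n ≠ 0) (s : ℂ) : powNeg n s = (n : ℂ) ^ (-s) := by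
  rw [powNeg, Complex.cpow_def_of_ne_zero (Nat.cast_ne_zero.2 hn), ← Complex.natCast_log]
  ring_nf

theorem powNeg_mul {m n : ℕ} (hm : m ≠ 0) (hn : n ≠ 0) (s : ℂ) :
    powNeg (m * n) s = powNeg m s * powNeg n s := by
  rw [powNeg, powNeg, powNeg, ← Complex.exp_add, Nat.cast_mul,
    Real.log_mul (Nat.cast_ne_zero.2 hm) (Nat.cast_ne_zero.2 hn)]
  push_cast
  ring_nf

theorem powNeg_pow (n k : ℕ) (s : ℂ) : powNeg (n ^ k) s = powNeg n s ^ k := by
  rw [powNeg, powNeg, ← Complex.exp_nat_mul, Nat.cast_pow, Real.log_pow]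
  push_cast
  ring_nf

theorem differentiable_powNeg (n : ℕ) : Differentiable ℂ (powNeg n) := by
  unfold powNeg
  fun_prop

theorem norm_powNeg {n : ℕ} (hn : n ≠ 0) (s : ℂ) : ‖powNeg n s‖ = (n : ℝ) ^ (-s.re) := by
  rw [powNeg_eq_cpow hn, Complex.norm_natCast_cpow_of_pos (Nat.pos_of_ne_zero hn)]
  simp

theorem norm_delta_le (p : Nat.Primes) {s : ℂ} (hs : 0 ≤ s.re) :
    ‖delta p s‖ ≤ ‖s‖ * ((p.1 - 1 : ℕ) : ℝ) ^ (-(s.re + 1)) := by
  obtain ⟨n, hn⟩ : ∃ n, p.1 = n + 1 := ⟨p.1 - 1, by have := p.2.one_le; omega⟩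
  have hn0 : 0 < n := by have := p.2.two_le; omega
  have hn' : (0 : ℝ) < n := Nat.cast_pos.2 hn0
  have hab : Real.log n ≤ Real.log (n + 1 : ℕ) :=
    Real.log_le_log hn' (Nat.cast_le.2 n.le_succ)
  have hderiv : ∀ t ∈ Icc (Real.log n) (Real.log (n + 1 : ℕ)),
      HasDerivWithinAt (fun t : ℝ => cexp (-(s * t))) (cexp (-(s * t)) * -s)
        (Icc (Real.log n) (Real.log (n + 1 : ℕ))) t := fun t _ => by
    have h1 : HasDerivAt (fun t : ℝ => (t : ℂ)) 1 t := Complex.ofRealCLM.hasDerivAt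
    simpa using ((h1.const_mul s).fun_neg.cexp).hasDerivWithinAt
  have hbound : ∀ t ∈ Icc (Real.log n) (Real.log (n + 1 : ℕ)),
      ‖cexp (-(s * t)) * -s‖ ≤ ‖s‖ * (n : ℝ) ^ (-s.re) := fun t ht => by
    rw [norm_mul, norm_neg, mul_comm, Complex.norm_exp, Real.rpow_def_of_pos hn']
    refine mul_le_mul_of_nonneg_left (Real.exp_le_exp.2 ?_) (norm_nonneg s)
    simp only [neg_re, mul_re, ofReal_re, ofReal_im, mul_zero, sub_zero]
    nlinarith [mul_le_mul_of_nonneg_left ht.1 hs]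
  have h := (convex_Icc _ _).norm_image_sub_le_of_norm_hasDerivWithin_le hderiv hbound
    (right_mem_Icc.2 hab) (left_mem_Icc.2 hab)
  have hsub : |Real.log n - Real.log (n + 1 : ℕ)| ≤ (n : ℝ)⁻¹ := by
    rw [abs_sub_comm, abs_of_nonneg (sub_nonneg.2 hab),
      ← Real.log_div (Nat.cast_ne_zero.2 n.succ_ne_zero) hn'.ne']
    refine (Real.log_le_sub_one_of_pos (by positivity)).trans (le_of_eq ?_)
    push_cast
    field_simp
    ring
  rw [delta, hn, Nat.add_sub_cancel, powNeg, powNeg]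
  refine h.trans ?_
  rw [Real.norm_eq_abs, neg_add, Real.rpow_add hn', Real.rpow_neg_one, ← mul_assoc]
  exact mul_le_mul_of_nonneg_left hsub (by positivity)

theorem summable_prime_bound :
    Summable fun p : Nat.Primes => ((p.1 - 1 : ℕ) : ℝ) ^ (-(5 / 4) : ℝ) :=
  (Real.summable_nat_rpow.2 (by norm_num : (-(5 / 4) : ℝ) < -1)).comp_injective
    fun p q (h : p.1 - 1 = q.1 - 1) =>
      Subtype.ext (by have := p.2.one_le; have := q.2.one_le; omega)

theorem hasProdLocallyUniformlyOn_eulerFactor (R : ℝ) :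
    HasProdLocallyUniformlyOn (fun p s => 1 + delta p s) eulerFactor
      {s : ℂ | 1 / 4 < s.re ∧ ‖s‖ < R} := by
  refine Summable.hasProdLocallyUniformlyOn_one_add ((isOpen_lt continuous_const
    Complex.continuous_re).inter (isOpen_lt continuous_norm continuous_const))
    (summable_prime_bound.mul_left |R|) (Eventually.of_forall fun p s hs => ?_)
    fun p => ((differentiable_powNeg _).sub (differentiable_powNeg _)).continuous.continuousOn
  refine (norm_delta_le p (by linarith [hs.1])).trans (mul_le_mul ((le_of_lt hs.2).trans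
    (le_abs_self R)) ?_ (by positivity) (abs_nonneg R))
  have h1 : (1 : ℝ) ≤ ((p.1 - 1 : ℕ) : ℝ) := by
    exact_mod_cast (show 1 ≤ p.1 - 1 by have := p.2.two_le; omega)
  exact Real.rpow_le_rpow_of_exponent_le h1 (by linarith [hs.1])

theorem differentiableOn_eulerFactor :
    DifferentiableOn ℂ eulerFactor {s : ℂ | 1 / 4 < s.re} := by
  intro s hs
  have hopen : IsOpen {z : ℂ | 1 / 4 < z.re ∧ ‖z‖ < ‖s‖ + 1} :=
    (isOpen_lt continuous_const Complex.continuous_re).inter
      (isOpen_lt continuous_norm continuous_const)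
  have h := (hasProdLocallyUniformlyOn_iff_tendstoLocallyUniformlyOn.1
    (hasProdLocallyUniformlyOn_eulerFactor (‖s‖ + 1))).differentiableOn
    (Eventually.of_forall fun F => DifferentiableOn.fun_finsetProd fun p _ =>
      ((differentiableOn_const _).add ((differentiable_powNeg _).sub
        (differentiable_powNeg _)).differentiableOn)) hopen
  exact (h.differentiableAt (hopen.mem_nhds ⟨hs, lt_add_one _⟩)).differentiableWithinAt

theorem hasProd_eulerFactor {s : ℂ} (hs : 1 / 4 < s.re) :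
    HasProd (fun p => 1 + delta p s) (eulerFactor s) :=
  (hasProdLocallyUniformlyOn_eulerFactor (‖s‖ + 1)).hasProd ⟨hs, lt_add_one _⟩

/-- `φ n ^ (-s)`, and `0` at `0`. -/
def term (s : ℂ) (n : ℕ) : ℂ := if n = 0 then 0 else powNeg n.totient s

theorem summable_norm_term {s : ℂ} (hs : 1 < s.re) : Summable (‖term s ·‖) := by
  obtain ⟨τ, hτ, hτs⟩ := exists_between hs
  have hd : 0 < 1 - τ / s.re := sub_pos.2 ((div_lt_one (by linarith)).2 hτs)
  obtain ⟨a, ha⟩ : ∃ a, a = Real.exp (-Real.eulerMascheroniConstant) / 2 := ⟨_, rfl⟩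
  have ha0 : 0 < a := ha ▸ half_pos (Real.exp_pos _)
  have hlo : ∀ᶠ n : ℕ in atTop, Real.log (Real.log n) ≤ a * (n : ℝ) ^ (1 - τ / s.re) := by
    filter_upwards [tendsto_natCast_atTop_atTop.eventually
      ((isLittleO_log_rpow_atTop hd).def ha0),
      (Real.tendsto_log_atTop.comp tendsto_natCast_atTop_atTop).eventually_gt_atTop 0,
      eventually_ge_atTop 1] with n hn hL hn1
    refine ((Real.log_le_sub_one_of_pos hL).trans (sub_le_self _ zero_le_one)).trans ?_
    rw [Real.norm_of_nonneg (Real.rpow_nonneg (Nat.cast_nonneg n) _)] at hn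
    exact (le_abs_self _).trans hn
  refine Summable.of_norm_bounded_eventually_nat
    (Real.summable_nat_rpow.2 (show -τ < -1 by linarith)) ?_
  filter_upwards [hlo, FA.MertensThird.eventually_le_phiRatio (a := a) (by
      rw [ha]; linarith [Real.exp_pos (-Real.eulerMascheroniConstant)]),
    FA.MertensThird.tendsto_loglog_natCast.eventually_gt_atTop 0, eventually_ge_atTop 1]
    with n hn hφ hll hn1
  have hn0 : (0 : ℝ) < n := Nat.cast_pos.2 hn1
  have hφ0 : n.totient ≠ 0 := (Nat.totient_pos.2 hn1).ne'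
  rw [FA.MertensThird.phiRatio, le_div_iff₀ hn0] at hφ
  have key : (n : ℝ) ^ (τ / s.re) ≤ n.totient := by
    refine le_of_mul_le_mul_right ?_ hll
    calc (n : ℝ) ^ (τ / s.re) * Real.log (Real.log n)
        ≤ (n : ℝ) ^ (τ / s.re) * (a * (n : ℝ) ^ (1 - τ / s.re)) :=
          mul_le_mul_of_nonneg_left hn (by positivity)
      _ = a * n := by rw [mul_left_comm, ← Real.rpow_add hn0]; simp
      _ ≤ _ := hφ
  rw [norm_norm, term, if_neg (by omega), norm_powNeg hφ0]
  refine (Real.rpow_le_rpow_of_nonpos (Real.rpow_pos_of_pos hn0 _) key (by linarith)).trans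
    (le_of_eq ?_)
  rw [← Real.rpow_mul hn0.le]
  congr 1
  have : s.re ≠ 0 := by linarith
  field_simp

theorem term_mul {m n : ℕ} (s : ℂ) (h : m.Coprime n) :
    term s (m * n) = term s m * term s n := by
  rcases eq_or_ne m 0 with rfl | hm
  · simp [term]
  rcases eq_or_ne n 0 with rfl | hn
  · simp [term]
  rw [term, term, term, if_neg (mul_ne_zero hm hn), if_neg hm, if_neg hn, Nat.totient_mul h,
    powNeg_mul (Nat.totient_pos.2 (Nat.pos_of_ne_zero hm)).ne'
      (Nat.totient_pos.2 (Nat.pos_of_ne_zero hn)).ne']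

theorem hasProd_zeta {s : ℂ} (hs : 1 < s.re) :
    HasProd (fun p : Nat.Primes => (1 - powNeg p s)⁻¹) (riemannZeta s) := by
  simpa only [powNeg_eq_cpow (Nat.Prime.ne_zero (Subtype.prop _))]
    using riemannZeta_eulerProduct_hasProd hs

/-- **`∑ φ n ^ (-s) = ζ s E s`.** -/
theorem tsum_term {s : ℂ} (hs : 1 < s.re) :
    ∑' n, term s n = riemannZeta s * eulerFactor s := by
  refine (EulerProduct.eulerProduct_hasProd (f := term s) (by simp [term, powNeg])
    (term_mul s) (summable_norm_term hs) (by simp [term])).unique ?_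
  refine ((hasProd_zeta hs).mul (hasProd_eulerFactor (by linarith))).congr_fun fun p => ?_
  have hp1 := p.2.one_le
  have hsum : Summable fun e => term s (p.1 ^ e) :=
    (summable_norm_term hs).of_norm.comp_injective (Nat.pow_right_injective p.2.two_le)
  have hq : ‖powNeg p.1 s‖ < 1 := by
    rw [norm_powNeg p.2.ne_zero]
    exact Real.rpow_lt_one_of_one_lt_of_neg (Nat.one_lt_cast.2 p.2.one_lt) (by linarith)
  have hterm : ∀ e, term s (p.1 ^ (e + 1)) = powNeg (p.1 - 1) s * powNeg p.1 s ^ e := fun e => by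
    rw [term, if_neg (pow_ne_zero _ p.2.ne_zero), Nat.totient_prime_pow_succ p.2,
      powNeg_mul (pow_ne_zero _ p.2.ne_zero) (by have := p.2.two_le; omega), powNeg_pow, mul_comm]
  rw [hsum.tsum_eq_zero_add, pow_zero, term, if_neg one_ne_zero, Nat.totient_one,
    tsum_congr hterm, tsum_mul_left, tsum_geometric_of_norm_lt_one hq]
  have hne : 1 - powNeg p.1 s ≠ 0 := sub_ne_zero.2 fun h => by
    rw [← h, norm_one] at hq; exact hq.false
  rw [delta, show powNeg 1 s = 1 by simp [powNeg]]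
  field_simp
  ring

/-- `E 1 ζ 6 = ζ 2 ζ 3`. -/
theorem eulerFactor_one : eulerFactor 1 * riemannZeta 6 = riemannZeta 2 * riemannZeta 3 := by
  refine ((hasProd_eulerFactor (s := 1) (by norm_num)).mul
    (hasProd_zeta (s := 6) (by norm_num))).unique ?_
  refine ((hasProd_zeta (s := 2) (by norm_num)).mul
    (hasProd_zeta (s := 3) (by norm_num))).congr_fun fun p => ?_
  obtain ⟨n, hn⟩ : ∃ n, p.1 = n + 2 := ⟨p.1 - 2, by have := p.2.two_le; omega⟩
  have e1 : powNeg (p.1 - 1) 1 = ((n : ℂ) + 1)⁻¹ := by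
    rw [hn, show n + 2 - 1 = n + 1 by omega, powNeg_eq_cpow n.succ_ne_zero, cpow_neg_one]
    push_cast; ring
  have e2 : ∀ k : ℕ, powNeg p.1 (k : ℂ) = (((n : ℂ) + 2) ^ k)⁻¹ := fun k => by
    rw [powNeg_eq_cpow p.2.ne_zero, cpow_neg, cpow_natCast, hn]
    push_cast
    ring
  have h1 := e2 1
  have h2 := e2 2
  have h3 := e2 3
  have h6 := e2 6
  simp only [Nat.cast_one, Nat.cast_ofNat, pow_one] at h1 h2 h3 h6
  rw [delta, e1, h1, h2, h3, h6]
  have hx : ((n : ℂ) + 2) ≠ 0 := by exact_mod_cast (show n + 2 ≠ 0 by omega)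
  have hy : ((n : ℂ) + 1) ≠ 0 := by exact_mod_cast (show n + 1 ≠ 0 by omega)
  have hpow : ∀ k, k ≠ 0 → (1 : ℂ) - (((n : ℂ) + 2) ^ k)⁻¹ ≠ 0 := fun k hk h => by
    rw [sub_eq_zero, eq_comm, inv_eq_one] at h
    have h' : ((n + 2) ^ k : ℕ) = 1 := by exact_mod_cast h
    exact (Nat.one_lt_pow hk (by omega)).ne' h'
  have := hpow 2 two_ne_zero
  have := hpow 3 three_ne_zero
  have := hpow 6 (by norm_num)
  have p6 : ((n : ℂ) + 2) ^ 6 - 1 ≠ 0 := by
    refine sub_ne_zero.2 ?_
    exact_mod_cast (Nat.one_lt_pow (n := 6) (by norm_num) (show 1 < n + 2 by omega)).ne'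
  have p3 : ((n : ℂ) + 2) ^ 3 - 1 ≠ 0 := by
    refine sub_ne_zero.2 ?_
    exact_mod_cast (Nat.one_lt_pow three_ne_zero (show 1 < n + 2 by omega)).ne'
  have p2 : ((n : ℂ) + 2) ^ 2 - 1 ≠ 0 := by
    refine sub_ne_zero.2 ?_
    exact_mod_cast (Nat.one_lt_pow two_ne_zero (show 1 < n + 2 by omega)).ne'
  field_simp
  ring

end FA.TotientCount
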