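import Fermat.Agent.TotientCount.EulerFactor
import Fermat.Agent.WienerIkehara.Series
import Mathlib.Analysis.Calculus.DSlope
import Mathlib.NumberTheory.Harmonic.ZetaAsymp

/-!
# The count of `n` with `φ n ≤ x`

`∑ φ n ^ (-s) - c / (s - 1)`, `c = ζ 2 ζ 3 / ζ 6`, is continuous on `1 ≤ re s`, so there are
`∼ c x` such `n` by the Wiener–Ikehara theorem.
-/

set_option autoImplicit false

noncomputable section

namespace FA.TotientCount

open Filter Set Complex
open FA.WienerIkehara (weightSum)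
open scoped Topology

/-- `ζ 2 ζ 3 / ζ 6`. -/
def totientConst : ℝ :=
  (∑' n : ℕ, 1 / (n : ℝ) ^ 2) * (∑' n : ℕ, 1 / (n : ℝ) ^ 3) / ∑' n : ℕ, 1 / (n : ℝ) ^ 6

theorem zeta_ofReal {k : ℕ} (hk : 1 < k) :
    riemannZeta k = ((∑' n : ℕ, 1 / (n : ℝ) ^ k : ℝ) : ℂ) := by
  rw [zeta_nat_eq_tsum_of_gt_one hk, Complex.ofReal_tsum]
  simp

theorem eulerFactor_one_eq : eulerFactor 1 = (totientConst : ℂ) := by
  have h6 : riemannZeta 6 ≠ 0 := riemannZeta_ne_zero_of_one_lt_re (by norm_num)
  have e6 : riemannZeta 6 = ((∑' n : ℕ, 1 / (n : ℝ) ^ 6 : ℝ) : ℂ) := by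
    exact_mod_cast zeta_ofReal (k := 6) (by norm_num)
  have e2 : riemannZeta 2 = ((∑' n : ℕ, 1 / (n : ℝ) ^ 2 : ℝ) : ℂ) := by
    exact_mod_cast zeta_ofReal (k := 2) (by norm_num)
  have e3 : riemannZeta 3 = ((∑' n : ℕ, 1 / (n : ℝ) ^ 3 : ℝ) : ℂ) := by
    exact_mod_cast zeta_ofReal (k := 3) (by norm_num)
  rw [totientConst, Complex.ofReal_div, Complex.ofReal_mul, ← e2, ← e3, ← e6,
    ← eulerFactor_one, mul_div_cancel_right₀ _ h6]

/-- `ζ s - 1 / (s - 1)`. -/
def zetaSmooth : ℂ → ℂ :=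
  Function.update (fun s => riemannZeta s - 1 / (s - 1)) 1 Real.eulerMascheroniConstant

theorem continuous_zetaSmooth : Continuous zetaSmooth := by
  refine continuous_iff_continuousAt.2 fun s => ?_
  rcases eq_or_ne s 1 with rfl | hs
  · exact continuousAt_update_same.2 tendsto_riemannZeta_sub_one_div
  · refine (continuousAt_update_of_ne hs).2 ((differentiableAt_riemannZeta hs).continuousAt.sub ?_)
    exact continuousAt_const.div (continuousAt_id.sub continuousAt_const) (sub_ne_zero.2 hs)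

theorem tendsto_weightSum_totient :
    Tendsto (fun u => weightSum (fun n : ℕ => Real.log n.totient)
      (fun n => if n = 0 then 0 else 1) u * Real.exp (-u)) atTop (𝓝 totientConst) := by
  have hterm : ∀ (s : ℂ) (n : ℕ),
      (((if n = 0 then 0 else 1 : ℝ) : ℂ)) * cexp (-(s * Real.log n.totient)) = term s n :=
    fun s n => by
      rw [term, powNeg]
      split_ifs <;> simp
  refine FA.WienerIkehara.tendsto_weightSum (G := fun s => zetaSmooth s * eulerFactor s +
      dslope eulerFactor 1 s) (fun n => Real.log_natCast_nonneg _)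
    (fun n => by split_ifs <;> norm_num) (fun σ hσ => ?_) ?_ fun s hs => ?_
  · refine ((summable_norm_term (s := (σ : ℂ)) (by simpa using hσ))).congr fun n => ?_
    rw [term, powNeg]
    split_ifs with h
    · simp
    · rw [Complex.norm_exp]
      simp only [neg_re, mul_re, ofReal_re, ofReal_im, mul_zero, sub_zero, one_mul]
  · have hopen : IsOpen {s : ℂ | 1 / 4 < s.re} :=
      isOpen_lt continuous_const Complex.continuous_re
    have h1 : (1 : ℂ) ∈ {s : ℂ | 1 / 4 < s.re} := by norm_num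
    refine ((continuous_zetaSmooth.continuousOn.mul differentiableOn_eulerFactor.continuousOn).add
      ((continuousOn_dslope (hopen.mem_nhds h1)).2 ⟨differentiableOn_eulerFactor.continuousOn,
        differentiableOn_eulerFactor.differentiableAt (hopen.mem_nhds h1)⟩)).mono ?_
    intro s (hs : 1 ≤ s.re)
    exact lt_of_lt_of_le (by norm_num) hs
  · have hne : s ≠ 1 := fun h => by rw [h, one_re] at hs; exact lt_irrefl _ hs
    rw [tsum_congr (hterm s), tsum_term hs, zetaSmooth, Function.update_of_ne hne,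
      dslope_of_ne _ hne, slope_def_field, eulerFactor_one_eq]
    have : s - 1 ≠ 0 := sub_ne_zero.2 hne
    field_simp
    ring

theorem finite_totient_le (x : ℝ) : {n : ℕ | 0 < n ∧ (n.totient : ℝ) ≤ x}.Finite := by
  obtain ⟨M, hM⟩ : ∃ M : ℝ, M = max x 1 := ⟨_, rfl⟩
  have hM0 : 0 < M := lt_of_lt_of_le one_pos (hM ▸ le_max_right x 1)
  have h := (summable_norm_term (s := (2 : ℂ)) (by norm_num)).tendsto_cofinite_zero.eventually
    (eventually_lt_nhds (show 0 < M ^ (-(2 : ℝ)) from Real.rpow_pos_of_pos hM0 _))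
  refine (eventually_cofinite.1 h).subset fun n ⟨hn, hle⟩ hlt => ?_
  rw [term, if_neg hn.ne', norm_powNeg (Nat.totient_pos.2 hn).ne'] at hlt
  simp only [re_ofNat] at hlt
  exact hlt.not_ge (Real.rpow_le_rpow_of_nonpos (Nat.cast_pos.2 (Nat.totient_pos.2 hn))
    (hle.trans (hM ▸ le_max_left x 1)) (by norm_num))

/-- **Erdős and Bateman: `#{n : φ n ≤ x} ∼ ζ 2 ζ 3 / ζ 6 · x`.** -/
theorem tendsto_totient_count :
    Tendsto (fun x : ℝ => (Nat.card {n : ℕ // 0 < n ∧ (n.totient : ℝ) ≤ x} : ℝ) / x) atTop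
      (𝓝 totientConst) := by
  refine (tendsto_weightSum_totient.comp Real.tendsto_log_atTop).congr' ?_
  filter_upwards [eventually_gt_atTop 0] with x hx
  rw [Function.comp_apply, Real.exp_neg, Real.exp_log hx, ← div_eq_mul_inv]
  congr 1
  have hiff : ∀ n : ℕ, 0 < n → (Real.log n.totient ≤ Real.log x ↔ (n.totient : ℝ) ≤ x) :=
    fun n hn => Real.log_le_log_iff (Nat.cast_pos.2 (Nat.totient_pos.2 hn)) hx
  rw [weightSum, tsum_eq_sum (s := (finite_totient_le x).toFinset) fun n hn => ?_]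
  · rw [Finset.sum_congr rfl fun n hn => ?_, Finset.sum_const, nsmul_eq_mul, mul_one,
      Nat.cast_inj]
    · exact (Nat.card_eq_card_finite_toFinset (finite_totient_le x)).symm
    · obtain ⟨hn0, hle⟩ := (finite_totient_le x).mem_toFinset.1 hn
      rw [if_pos ((hiff n hn0).2 hle), if_neg hn0.ne']
  · split_ifs with h1 h2
    · rfl
    · exact absurd ((finite_totient_le x).mem_toFinset.2
        ⟨Nat.pos_of_ne_zero h2, (hiff n (Nat.pos_of_ne_zero h2)).1 h1⟩) hn
    · rfl

end FA.TotientCount
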